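import Fermat.Agent.Lib.Cheb.H281.CountAux

/-!
# CHEB piece A: `Spec.CountStatement` (helper281)

`L/ℚ` Galois number field, `H ≤ Gal(L/ℚ)`, `F = L^H`.  For every prime `p` unramified in `L`
(outside the prime factors of `H943.badNat L`):

  `#{𝔮 prime of 𝓞 F : absNorm 𝔮 = p} * |H| = ∑_{P ∣ p, D_P ≤ H} |D_P|`.

Proof: `P ↦ P ∩ 𝓞 F` maps `{P ∣ p : D_P ≤ H}` onto the primes of norm `p` of `𝓞 F`
(`decomp_le_iff_absNorm`, from the tower criterion `stabilizer_le_iff`), the fibre over `𝔮` is
`𝔮.primesOver (𝓞 L)`, and `∑_{P ∣ 𝔮} |D_P| = #{P ∣ 𝔮} · e f = |H|`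
(`Ideal.ncard_primesOver_mul_ramificationIdxIn_mul_inertiaDegIn`).

Main results: `count : Spec.CountStatement`, `count_of_unramified` (explicit hypothesis),
`primesLe_eq_biUnion`, `finsum_card_decomp_primesOver`.
-/

set_option autoImplicit false
set_option linter.unusedSectionVars false

open NumberField
open scoped Pointwise

namespace Fermat.Agent.Lib.Cheb.H281

variable {L : Type} [Field L] [NumberField L] [IsGalois ℚ L] (H : Subgroup (L ≃ₐ[ℚ] L))

/-- For a prime `P` over `q` with `D_P ≤ H`: `|D_P| = e(q) f(q)` (relative to `𝓞 L / 𝓞 (L^H)`). -/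
theorem card_decomp_eq_of_le (q : Ideal (𝓞 (IntermediateField.fixedField H))) [q.IsPrime]
    (P : Ideal (𝓞 L)) [P.IsPrime] [P.LiesOver q] (hle : Spec.decomp L P ≤ H) :
    Nat.card (Spec.decomp L P) = q.ramificationIdxIn (𝓞 L) * q.inertiaDegIn (𝓞 L) := by
  have hq : P.under (𝓞 (IntermediateField.fixedField H)) = q := (Ideal.LiesOver.over).symm
  rw [← (le_iff_card_subgroupOf_eq _ _).mp hle,
    card_stabilizer_subgroupOf_eq (T := 𝓞 (IntermediateField.fixedField H)) H P,
    Ideal.ramificationIdxIn_eq_ramificationIdx q P H,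
    Ideal.inertiaDegIn_eq_inertiaDeg q P H]

/-- The fibre sum: `∑_{P ∣ q} |D_P| = |H|` if all `D_P ≤ H`. -/
theorem finsum_card_decomp_primesOver (q : Ideal (𝓞 (IntermediateField.fixedField H)))
    [q.IsPrime]
    (hle : ∀ P ∈ q.primesOver (𝓞 L), Spec.decomp L P ≤ H) :
    ∑ᶠ P ∈ q.primesOver (𝓞 L), Nat.card (Spec.decomp L P) = Nat.card H := by
  have hfin : (q.primesOver (𝓞 L)).Finite := Algebra.QuasiFinite.finite_primesOver q
  have hconst : ∀ P ∈ q.primesOver (𝓞 L), Nat.card (Spec.decomp L P) =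
      q.ramificationIdxIn (𝓞 L) * q.inertiaDegIn (𝓞 L) := by
    intro P hP
    have := hP.1
    have := hP.2
    exact card_decomp_eq_of_le H q P (hle P hP)
  rw [finsum_mem_congr rfl hconst, finsum_mem_eq_finite_toFinset_sum _ hfin, Finset.sum_const,
    smul_eq_mul, ← Set.ncard_eq_toFinset_card _ hfin]
  exact Ideal.ncard_primesOver_mul_ramificationIdxIn_mul_inertiaDegIn q (𝓞 L) H

/-- The set of primes of norm `p` of the fixed field. -/
def normPrimes (p : ℕ) : Set (Ideal (𝓞 (IntermediateField.fixedField H))) :=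
  {q | q.IsPrime ∧ Ideal.absNorm q = p}

theorem finite_normPrimes (p : ℕ) : (normPrimes H p).Finite :=
  (Ideal.finite_setOfPred_absNorm_eq p).subset fun _ hq => hq.2

theorem primeCount_eq_ncard (p : ℕ) :
    Spec.primeCount (IntermediateField.fixedField H) p = (normPrimes H p).ncard := by
  unfold Spec.primeCount normPrimes
  exact Nat.card_coe_set_eq _

/-- Outside the bad set, the primes `P ∣ p` with `D_P ≤ H` are exactly the primes over the
primes of norm `p` of the fixed field. -/
theorem primesLe_eq_biUnion {p : ℕ} (hp : p.Prime)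
    (hunr : ∀ (P : Ideal (𝓞 L)) [P.IsPrime], (p : 𝓞 L) ∈ P → Algebra.IsUnramifiedAt ℤ P) :
    Spec.primesLe L H p = ⋃ q ∈ normPrimes H p, q.primesOver (𝓞 L) := by
  ext P
  simp only [Spec.primesLe, Set.mem_ofPred_eq, Set.mem_iUnion, exists_prop, normPrimes]
  constructor
  · rintro ⟨hP, hpP, hle⟩
    have := hunr P hpP
    refine ⟨P.under _, ⟨inferInstance, (decomp_le_iff_absNorm H hp P hpP).mp hle⟩, hP, ⟨rfl⟩⟩
  · rintro ⟨q, ⟨hq, hqp⟩, hP, hPq⟩
    have hqP : P.under (𝓞 (IntermediateField.fixedField H)) = q := hPq.over.symm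
    have hpP : (p : 𝓞 L) ∈ P := by
      have h1 : (p : 𝓞 (IntermediateField.fixedField H)) ∈ q := by
        rw [← hqp]; exact Ideal.absNorm_mem q
      rw [← hqP, Ideal.mem_comap] at h1
      simpa using h1
    have := hunr P hpP
    refine ⟨hP, hpP, (decomp_le_iff_absNorm H hp P hpP).mpr ?_⟩
    rw [hqP, hqp]

/-- **Piece A with explicit hypothesis**: at a prime `p` unramified in `L`. -/
theorem count_of_unramified {p : ℕ} (hp : p.Prime)
    (hunr : ∀ (P : Ideal (𝓞 L)) [P.IsPrime], (p : 𝓞 L) ∈ P → Algebra.IsUnramifiedAt ℤ P) :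
    Spec.primeCount (IntermediateField.fixedField H) p * Nat.card H =
      Spec.decompWeight L H p := by
  have hsub : ∀ q ∈ normPrimes H p, ∀ P ∈ q.primesOver (𝓞 L), Spec.decomp L P ≤ H := by
    intro q hq P hP
    have : P ∈ Spec.primesLe L H p := by
      rw [primesLe_eq_biUnion H hp hunr]
      exact Set.mem_biUnion hq hP
    exact this.2.2
  unfold Spec.decompWeight
  rw [finsum_set_coe_eq_finsum_mem (s := Spec.primesLe L H p)
    (f := fun P => Nat.card (Spec.decomp L P)), primesLe_eq_biUnion H hp hunr,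
    finsum_mem_biUnion ?_ (finite_normPrimes H p)
      (fun q _ => Algebra.QuasiFinite.finite_primesOver q)]
  · have : ∀ q ∈ normPrimes H p,
        ∑ᶠ P ∈ q.primesOver (𝓞 L), Nat.card (Spec.decomp L P) = Nat.card H := by
      intro q hq
      have := hq.1
      exact finsum_card_decomp_primesOver H q (hsub q hq)
    rw [finsum_mem_congr rfl this, finsum_mem_eq_finite_toFinset_sum _ (finite_normPrimes H p),
      Finset.sum_const, smul_eq_mul, ← Set.ncard_eq_toFinset_card _ (finite_normPrimes H p),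
      primeCount_eq_ncard]
  · intro q _ q' _ hne
    rw [Function.onFun, Set.disjoint_left]
    intro P hP hP'
    exact hne (hP.2.over.trans hP'.2.over.symm)

/-- **Piece A** of row CHEB: `Spec.CountStatement`. -/
theorem count : Spec.CountStatement := by
  intro L _ _ _ H
  refine ⟨(H943.badNat L).primeFactors, fun p hp hpB => ?_⟩
  have hpB' : ¬ p ∣ H943.badNat L := fun h =>
    hpB (Nat.mem_primeFactors.mpr ⟨hp, h, H943.badNat_ne_zero L⟩)
  exact count_of_unramified H hp fun P hP hpP =>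
    (H943.frob_of_not_dvd_badNat hp hpB' P hP hpP).1

end Fermat.Agent.Lib.Cheb.H281
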