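import Mathlib

/-!
# Decomposition groups in towers (helper281, CHEB pieces A / F3)

Ring-level setting of Mathlib (`IsGaloisGroup G R S`): a finite group `G` acts on `S` with
invariants `R`, a subgroup `H` has invariants `T`, `R → T → S`.

* `card_stabilizer_eq_ramificationIdx_mul_inertiaDeg`: `|D_Q| = e(Q|R) f(Q|R)`.
* `card_stabilizer_subgroupOf_eq`: `|D_Q ∩ H| = e(Q|T) f(Q|T)`.
* `card_stabilizer_eq_mul`: `|D_Q| = e(q|R) f(q|R) |D_Q ∩ H|`, `q = Q ∩ T`.
* `stabilizer_le_iff`: `D_Q ≤ H ↔ e(q|R) = 1 ∧ f(q|R) = 1`.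
-/

set_option autoImplicit false
set_option linter.unusedSectionVars false

open scoped Pointwise

namespace Fermat.Agent.Lib.Cheb.H281

theorem card_subgroupOf_eq_card_inf {G : Type*} [Group G] (A B : Subgroup G) :
    Nat.card (A.subgroupOf B) = Nat.card (A ⊓ B : Subgroup G) := by
  rw [← Subgroup.inf_subgroupOf_right A B]
  exact Nat.card_congr (Subgroup.subgroupOfEquivOfLe (inf_le_right : A ⊓ B ≤ B)).toEquiv

theorem le_iff_card_subgroupOf_eq {G : Type*} [Group G] [Finite G] (A B : Subgroup G) :
    A ≤ B ↔ Nat.card (A.subgroupOf B) = Nat.card A := by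
  rw [card_subgroupOf_eq_card_inf]
  constructor
  · intro h
    rw [inf_eq_left.mpr h]
  · intro h
    have : A ⊓ B = A := Subgroup.eq_of_le_of_card_ge inf_le_left h.ge
    exact inf_eq_left.mp this

section general

variable {R T S G : Type*} [CommRing R] [CommRing T] [CommRing S]
  [Algebra R T] [Algebra T S] [Algebra R S] [IsScalarTower R T S]
  [IsDomain R] [IsDomain T] [IsDomain S]
  [Module.Finite R S] [Module.Flat R S] [Module.Finite T S] [Module.Flat T S]
  [Group G] [Finite G] [MulSemiringAction G S] [IsGaloisGroup G R S]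
  (H : Subgroup G) [IsGaloisGroup H T S]

/-- Cardinality of the decomposition group: `e * f`, for the prime `Q` itself. -/
theorem card_stabilizer_eq_ramificationIdx_mul_inertiaDeg (Q : Ideal S) [Q.IsPrime]
    [PerfectField (Q.under R).ResidueField] :
    Nat.card (MulAction.stabilizer G Q) = Q.ramificationIdx R * Q.inertiaDeg R := by
  have : Q.LiesOver (Q.under R) := ⟨rfl⟩
  rw [Ideal.card_stabilizer_eq (Q.under R) Q, Ideal.ramificationIdxIn_eq_ramificationIdx _ Q G,
    Ideal.inertiaDegIn_eq_inertiaDeg _ Q G]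

/-- Cardinality of the decomposition group in a subgroup `H` with fixed ring `T`. -/
theorem card_stabilizer_subgroupOf_eq (Q : Ideal S) [Q.IsPrime]
    [PerfectField (Q.under T).ResidueField] :
    Nat.card ((MulAction.stabilizer G Q).subgroupOf H) =
      Q.ramificationIdx T * Q.inertiaDeg T := by
  rw [← card_stabilizer_eq_ramificationIdx_mul_inertiaDeg (R := T) (G := H) Q]
  congr 1

/-- Tower formula for decomposition groups. -/
theorem card_stabilizer_eq_mul (Q : Ideal S) [Q.IsPrime]
    [PerfectField (Q.under R).ResidueField] [PerfectField (Q.under T).ResidueField] :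
    Nat.card (MulAction.stabilizer G Q) =
      ((Q.under T).ramificationIdx R * (Q.under T).inertiaDeg R) *
        Nat.card ((MulAction.stabilizer G Q).subgroupOf H) := by
  have : Q.LiesOver (Q.under T) := ⟨rfl⟩
  rw [card_stabilizer_eq_ramificationIdx_mul_inertiaDeg (R := R) (G := G) Q,
    card_stabilizer_subgroupOf_eq (T := T) H Q,
    Ideal.ramificationIdx_tower (R := R) (Q.under T) Q, Ideal.inertiaDeg_tower (R := R) (Q.under T) Q]
  ring

/-- **Tower criterion.** The decomposition group of `Q` is contained in `H` iff the prime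
`Q ∩ T` of the fixed ring `T` of `H` has `e * f = 1` over `R`. -/
theorem stabilizer_le_iff (Q : Ideal S) [Q.IsPrime]
    [PerfectField (Q.under R).ResidueField] [PerfectField (Q.under T).ResidueField] :
    MulAction.stabilizer G Q ≤ H ↔
      (Q.under T).ramificationIdx R = 1 ∧ (Q.under T).inertiaDeg R = 1 := by
  have key := card_stabilizer_eq_mul (R := R) (T := T) H Q
  have hpos : 0 < Nat.card ((MulAction.stabilizer G Q).subgroupOf H) := Nat.card_pos
  rw [le_iff_card_subgroupOf_eq]
  constructor
  · intro h
    have h1 : (Q.under T).ramificationIdx R * (Q.under T).inertiaDeg R = 1 := by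
      apply Nat.eq_of_mul_eq_mul_right hpos
      rw [one_mul, ← key, h]
    exact ⟨Nat.eq_one_of_mul_eq_one_right h1, Nat.eq_one_of_mul_eq_one_left h1⟩
  · rintro ⟨h1, h2⟩
    rw [key, h1, h2]; simp

end general

end Fermat.Agent.Lib.Cheb.H281
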