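import Fermat.Agent.Lib.Cheb.Spec
import Fermat.Agent.Lib.Cheb.H943.Frob
import Fermat.Agent.Lib.Cheb.H281.Tower

/-!
# CHEB piece A, auxiliary lemmas (helper281)

* `isGaloisGroup_fixedField`: `IsGaloisGroup H (𝓞 (L^H)) (𝓞 L)`.
* `decomp_le_iff`: `D_P ≤ H ↔ e(P ∩ 𝓞(L^H) | ℤ) = 1 ∧ f(P ∩ 𝓞(L^H) | ℤ) = 1`.
* `decomp_le_iff_absNorm`: at unramified `P ∣ p`: `D_P ≤ H ↔ absNorm (P ∩ 𝓞(L^H)) = p`.
-/

set_option autoImplicit false
set_option linter.unusedSectionVars false

open NumberField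
open scoped Pointwise

namespace Fermat.Agent.Lib.Cheb.H281

variable {L : Type} [Field L] [NumberField L] [IsGalois ℚ L] (H : Subgroup (L ≃ₐ[ℚ] L))

/-- `H` is a Galois group for `𝓞 L` over the ring of integers of its fixed field. -/
instance isGaloisGroup_fixedField :
    IsGaloisGroup H (𝓞 (IntermediateField.fixedField H)) (𝓞 L) := by
  have : IsGaloisGroup H (IntermediateField.fixedField H) L :=
    IsGaloisGroup.subgroup (L ≃ₐ[ℚ] L) ℚ L H
  exact IsGaloisGroup.of_isFractionRing H (𝓞 (IntermediateField.fixedField H)) (𝓞 L)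
    (IntermediateField.fixedField H) L

/-- A prime of a ring of integers containing the rational prime `p` lies over `(p)`. -/
theorem under_int_eq_span {K : Type*} [Field K] [NumberField K] {p : ℕ} (hp : p.Prime)
    {P : Ideal (𝓞 K)} [P.IsPrime] (hpP : (p : 𝓞 K) ∈ P) :
    P.under ℤ = Ideal.span {(p : ℤ)} := by
  have hmax : (Ideal.span {(p : ℤ)}).IsMaximal :=
    PrincipalIdealRing.isMaximal_of_irreducible
      (Nat.prime_iff_prime_int.mp hp).irreducible
  refine (hmax.eq_of_le (Ideal.IsPrime.under ℤ P).ne_top ?_).symm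
  rw [Ideal.span_singleton_le_iff_mem, Ideal.mem_comap]
  simpa using hpP

theorem natCast_mem_of_under_eq {K : Type*} [Field K] [NumberField K] {p : ℕ}
    {P : Ideal (𝓞 K)} (h : P.under ℤ = Ideal.span {(p : ℤ)}) : (p : 𝓞 K) ∈ P := by
  have : (p : ℤ) ∈ P.under ℤ := by rw [h]; exact Ideal.mem_span_singleton_self _
  simpa [Ideal.mem_comap] using this

/-- Absolute norm of a prime over `p` in terms of the (new-style) inertia degree. -/
theorem absNorm_eq_pow_inertiaDeg_int {K : Type*} [Field K] [NumberField K] {p : ℕ}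
    (hp : p.Prime) {P : Ideal (𝓞 K)} [P.IsPrime] (hpP : (p : 𝓞 K) ∈ P) :
    Ideal.absNorm P = p ^ P.inertiaDeg ℤ := by
  have h := under_int_eq_span hp hpP
  have : P.LiesOver (Ideal.span {(p : ℤ)}) := ⟨h.symm⟩
  have hmax : (Ideal.span {(p : ℤ)}).IsMaximal :=
    PrincipalIdealRing.isMaximal_of_irreducible
      (Nat.prime_iff_prime_int.mp hp).irreducible
  have hne : P ≠ ⊥ := by
    rintro rfl
    rw [Ideal.mem_bot] at hpP
    exact hp.ne_zero (by exact_mod_cast hpP)
  have : P.IsMaximal := Ideal.IsPrime.isMaximal inferInstance hne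
  rw [Ideal.absNorm_eq_pow_inertiaDeg' P hp, Ideal.inertiaDeg'_eq_inertiaDeg]


/-- **Tower criterion for number fields.** `D_P ≤ H` iff the prime `P ∩ 𝓞 (L^H)` has `e = f = 1`
over `ℤ`. -/
theorem decomp_le_iff (P : Ideal (𝓞 L)) [P.IsPrime] :
    Spec.decomp L P ≤ H ↔
      (P.under (𝓞 (IntermediateField.fixedField H))).ramificationIdx ℤ = 1 ∧
        (P.under (𝓞 (IntermediateField.fixedField H))).inertiaDeg ℤ = 1 :=
  stabilizer_le_iff (R := ℤ) (T := 𝓞 (IntermediateField.fixedField H)) H P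


/-- At an unramified prime `P` of `𝓞 L`, the prime below `P` in `𝓞 (L^H)` has `e = 1`. -/
theorem ramificationIdx_under_eq_one (P : Ideal (𝓞 L)) [P.IsPrime]
    [Algebra.IsUnramifiedAt ℤ P] :
    (P.under (𝓞 (IntermediateField.fixedField H))).ramificationIdx ℤ = 1 := by
  have h1 : P.ramificationIdx ℤ = 1 := Ideal.ramificationIdx_eq_one P ℤ
  have : P.LiesOver (P.under (𝓞 (IntermediateField.fixedField H))) := ⟨rfl⟩
  have h2 := Ideal.ramificationIdx_below_dvd (R := ℤ)
    (P.under (𝓞 (IntermediateField.fixedField H))) P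
  rw [h1] at h2
  exact Nat.dvd_one.mp h2

theorem natCast_mem_under {p : ℕ} {P : Ideal (𝓞 L)} (hpP : (p : 𝓞 L) ∈ P) :
    (p : 𝓞 (IntermediateField.fixedField H)) ∈
      P.under (𝓞 (IntermediateField.fixedField H)) := by
  rw [Ideal.mem_comap]
  simpa using hpP

/-- At an unramified prime `P ∣ p`: `D_P ≤ H` iff `P ∩ 𝓞 (L^H)` has absolute norm `p`. -/
theorem decomp_le_iff_absNorm {p : ℕ} (hp : p.Prime) (P : Ideal (𝓞 L)) [P.IsPrime]
    [Algebra.IsUnramifiedAt ℤ P] (hpP : (p : 𝓞 L) ∈ P) :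
    Spec.decomp L P ≤ H ↔
      Ideal.absNorm (P.under (𝓞 (IntermediateField.fixedField H))) = p := by
  rw [decomp_le_iff H P, absNorm_eq_pow_inertiaDeg_int hp (natCast_mem_under H hpP)]
  constructor
  · rintro ⟨-, h⟩
    rw [h, pow_one]
  · intro h
    refine ⟨ramificationIdx_under_eq_one H P, ?_⟩
    have h' : p ^ (P.under (𝓞 (IntermediateField.fixedField H))).inertiaDeg ℤ = p ^ 1 := by
      rw [h, pow_one]
    exact Nat.pow_right_injective hp.two_le h'

end Fermat.Agent.Lib.Cheb.H281
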