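import Fermat.Agent.Lib.Cheb.H281.CycAlgAux2

/-!
# CHEB Tier 2, piece CYC-ALG (helper281)

`cycAlg` is the statement `H221.CycAlgStatement` of helper221's CYC skeleton
(`origin/helper221:Fermat/Agent/Lib/Cheb/H221/CycSkel_wip.lean`), expanded verbatim
(`fixM L g = fixedField (zpowers g)`, `fixBot L = fixedField ⊥`), so that
`theorem x : H221.CycAlgStatement := H281.cycAlg` typechecks once the skeleton is landed.

Setting: `L/ℚ` Galois, `ζ ∈ L` a primitive `m`-th root of unity, `g ∈ Gal(L/ℚ)` with `⟨g⟩` acting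
faithfully on `ζ`, `a = autToPow g`, `M = L^⟨g⟩`, bad set `cycBad L m` (primes dividing `m` or
the different).
* (ORD) `card_zpowers_autToPow`: `|⟨a⟩| = ord g`;
* (SUPP) `cyc_supp`: a prime of norm `p` in `M` forces `p mod m ∈ ⟨a⟩`;
* (SPLIT) `cyc_split`: `c_L(p) = ord g · c_M(p)` if `p ≡ 1 (m)`, `= 0` otherwise;
* (NT) `cyc_nt`: `χ(a) ≠ 1 ⇒ χ ∘ N` is nontrivial on ideals of `𝓞 M` (uses `FrobFiniteStatement`);
* (FIN) `cyc_fin`: a prime of norm `p ≡ a (m)` in `M` gives `P ∣ p` with Frobenius `g`.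
-/

set_option autoImplicit false
set_option linter.unusedSectionVars false

open NumberField
open scoped Pointwise

namespace Fermat.Agent.Lib.Cheb.H281

section cyc

variable {L : Type} [Field L] [NumberField L] [IsGalois ℚ L] {m : ℕ} [NeZero m] {ζ : L}

theorem hunr_of_notMem_cycBad {p : ℕ} (hp : p.Prime) (hpB : p ∉ cycBad L m) :
    ∀ (P : Ideal (𝓞 L)) [P.IsPrime], (p : 𝓞 L) ∈ P → Algebra.IsUnramifiedAt ℤ P :=
  fun P hP hpP =>
    (H943.frob_of_not_dvd_badNat hp (not_dvd_of_notMem_cycBad hp hpB).2 P hP hpP).1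

/-- (SUPP) -/
theorem cyc_supp (hζ : IsPrimitiveRoot ζ m) (g : L ≃ₐ[ℚ] L) {p : ℕ}
    (hp : p.Prime) (hpB : p ∉ cycBad L m)
    (hc : Spec.primeCount (IntermediateField.fixedField (Subgroup.zpowers g)) p ≠ 0) :
    ∃ u ∈ Subgroup.zpowers (hζ.autToPow ℚ g), ((u : (ZMod m)ˣ) : ZMod m) = (p : ZMod m) := by
  obtain ⟨P, hP⟩ := exists_mem_primesLe (Subgroup.zpowers g) hp
    (hunr_of_notMem_cycBad hp hpB) hc
  obtain ⟨-, τ, -, -, hτg, hτζ⟩ := exists_frob_of_mem_primesLe hζ g hp hpB hP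
  refine ⟨hζ.autToPow ℚ τ, ?_, autToPow_eq_of_apply hζ τ hτζ⟩
  rw [← MonoidHom.map_zpowers]
  exact Subgroup.mem_map_of_mem _ hτg

/-- (FIN) -/
theorem cyc_fin (hζ : IsPrimitiveRoot ζ m) (g : L ≃ₐ[ℚ] L)
    (hg : ∀ k : ℕ, (g ^ k) ζ = ζ → g ^ k = 1) {p : ℕ}
    (hp : p.Prime) (hpB : p ∉ cycBad L m)
    (hc : Spec.primeCount (IntermediateField.fixedField (Subgroup.zpowers g)) p ≠ 0)
    (hpa : (p : ZMod m) = ((hζ.autToPow ℚ g : (ZMod m)ˣ) : ZMod m)) :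
    ∃ P : Ideal (𝓞 L), P.IsPrime ∧ (p : 𝓞 L) ∈ P ∧ Spec.InertiaTrivial L P ∧
      IsArithFrobAt ℤ g P := by
  obtain ⟨P, hP⟩ := exists_mem_primesLe (Subgroup.zpowers g) hp
    (hunr_of_notMem_cycBad hp hpB) hc
  obtain ⟨hI, τ, hτ, -, hτg, hτζ⟩ := exists_frob_of_mem_primesLe hζ g hp hpB hP
  have hgζ : g ζ = ζ ^ p := apply_eq_of_autToPow_eq hζ g hpa.symm
  have : τ = g := eq_of_mem_zpowers g hg hτg (Subgroup.mem_zpowers g) (hτζ.trans hgζ.symm)
  exact ⟨P, hP.1, hP.2.1, hI, this ▸ hτ⟩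

/-- (SPLIT), case `p ≡ 1 mod m`: the primes with `D_P ≤ ⟨g⟩` have `D_P = 1`. -/
theorem primesLe_zpowers_eq_bot (hζ : IsPrimitiveRoot ζ m) (g : L ≃ₐ[ℚ] L)
    (hg : ∀ k : ℕ, (g ^ k) ζ = ζ → g ^ k = 1) {p : ℕ}
    (hp : p.Prime) (hpB : p ∉ cycBad L m) (hp1 : (p : ZMod m) = 1) :
    Spec.primesLe L (Subgroup.zpowers g) p = Spec.primesLe L ⊥ p := by
  ext P
  constructor
  · intro hP
    obtain ⟨-, τ, -, hD, hτg, hτζ⟩ := exists_frob_of_mem_primesLe hζ g hp hpB hP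
    have hζp : ζ ^ p = ζ := by
      have := apply_eq_of_autToPow_eq hζ (1 : L ≃ₐ[ℚ] L) (k := p) (by simp [hp1])
      simpa using this.symm
    have hτ1 : τ = 1 := eq_one_of_mem_zpowers g hg hτg (hτζ.trans hζp)
    refine ⟨hP.1, hP.2.1, ?_⟩
    rw [hD, hτ1, Subgroup.zpowers_one_eq_bot]
  · intro hP
    exact ⟨hP.1, hP.2.1, hP.2.2.trans bot_le⟩

/-- (SPLIT), case `p ≢ 1 mod m`: no prime with `D_P = 1`. -/
theorem primesLe_bot_eq_empty (hζ : IsPrimitiveRoot ζ m) {p : ℕ}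
    (hp : p.Prime) (hpB : p ∉ cycBad L m) (hp1 : (p : ZMod m) ≠ 1) :
    Spec.primesLe L (⊥ : Subgroup (L ≃ₐ[ℚ] L)) p = ∅ := by
  ext P
  simp only [Set.mem_empty_iff_false, iff_false]
  intro hP
  have hP' : P ∈ Spec.primesLe L (Subgroup.zpowers (1 : L ≃ₐ[ℚ] L)) p := by
    rw [Subgroup.zpowers_one_eq_bot]; exact hP
  obtain ⟨-, τ, -, hD, hτg, hτζ⟩ := exists_frob_of_mem_primesLe hζ (1 : L ≃ₐ[ℚ] L) hp hpB hP'
  rw [Subgroup.zpowers_one_eq_bot, Subgroup.mem_bot] at hτg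
  rw [hτg] at hτζ
  have := autToPow_eq_of_apply hζ (1 : L ≃ₐ[ℚ] L) hτζ
  apply hp1
  rw [← this]
  simp

/-- (SPLIT) -/
theorem cyc_split (hζ : IsPrimitiveRoot ζ m) (g : L ≃ₐ[ℚ] L)
    (hg : ∀ k : ℕ, (g ^ k) ζ = ζ → g ^ k = 1) {p : ℕ}
    (hp : p.Prime) (hpB : p ∉ cycBad L m) :
    Spec.primeCount (IntermediateField.fixedField (⊥ : Subgroup (L ≃ₐ[ℚ] L))) p =
      if (p : ZMod m) = 1 then
        orderOf g * Spec.primeCount (IntermediateField.fixedField (Subgroup.zpowers g)) p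
      else 0 := by
  have hunr := hunr_of_notMem_cycBad (L := L) (m := m) hp hpB
  have h1 := count_of_unramified (⊥ : Subgroup (L ≃ₐ[ℚ] L)) hp hunr
  have h2 := count_of_unramified (Subgroup.zpowers g) hp hunr
  rw [Subgroup.card_bot, mul_one] at h1
  rw [Nat.card_zpowers] at h2
  split_ifs with hp1
  · rw [h1, mul_comm, h2]
    unfold Spec.decompWeight
    rw [primesLe_zpowers_eq_bot hζ g hg hp hpB hp1]
  · rw [h1]
    unfold Spec.decompWeight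
    rw [primesLe_bot_eq_empty hζ hp hpB hp1]
    exact finsum_of_isEmpty _

/-- (NT) -/
theorem cyc_nt (hM : Spec.FrobFiniteStatement) (hζ : IsPrimitiveRoot ζ m) (g : L ≃ₐ[ℚ] L)
    (χ : DirichletCharacter ℂ m)
    (hχ : χ ((hζ.autToPow ℚ g : (ZMod m)ˣ) : ZMod m) ≠ 1) :
    ∃ I : Ideal (𝓞 (IntermediateField.fixedField (Subgroup.zpowers g))),
      χ (Ideal.absNorm I : ZMod m) ≠ 0 ∧ χ (Ideal.absNorm I : ZMod m) ≠ 1 := by
  obtain ⟨p, P, τ, hp, hpB, hPp, hpP, hI, hτ, hτg⟩ := hM L g (cycBad L m)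
  obtain ⟨hpm, hpd⟩ := not_dvd_of_notMem_cycBad hp hpB
  have hD : Spec.decomp L P = Subgroup.zpowers τ :=
    have := hPp
    H943.decomp_eq_zpowers hp hpP hI hτ
  have hle : Spec.decomp L P ≤ Subgroup.zpowers g := by rw [hD, hτg]
  have hunr := hunr_of_notMem_cycBad (L := L) (m := m) hp hpB
  have := hPp
  have := hunr P hpP
  have hN := (decomp_le_iff_absNorm (Subgroup.zpowers g) hp P hpP).mp hle
  refine ⟨P.under _, ?_, ?_⟩
  · rw [hN]
    have hu : IsUnit ((p : ℕ) : ZMod m) := by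
      rw [ZMod.isUnit_iff_coprime]
      exact (Nat.Prime.coprime_iff_not_dvd hp).mpr hpm
    exact (hu.map χ).ne_zero
  · rw [hN]
    intro h1
    apply hχ
    -- `g = τ ^ k`
    have hgτ : g ∈ Subgroup.zpowers τ := hτg ▸ Subgroup.mem_zpowers g
    rw [← mem_powers_iff_mem_zpowers] at hgτ
    obtain ⟨k, rfl⟩ := hgτ
    have hτζ : τ ζ = ζ ^ p := frob_apply_zeta hζ hp hpm hpP hτ
    have h2 := autToPow_eq_of_apply hζ τ hτζ
    rw [map_pow, Units.val_pow_eq_pow_val, map_pow, h2, h1, one_pow]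

end cyc

/-- **CYC-ALG**: the statement `H221.CycAlgStatement` (expanded verbatim). -/
theorem cycAlg :
    Spec.CountStatement → Spec.FrobStatement → Spec.FrobFiniteStatement →
    ∀ (L : Type) [Field L] [NumberField L] [IsGalois ℚ L] (m : ℕ) [NeZero m] (ζ : L)
      (hζ : IsPrimitiveRoot ζ m) (g : L ≃ₐ[ℚ] L), (∀ k : ℕ, (g ^ k) ζ = ζ → g ^ k = 1) →
      Nat.card (Subgroup.zpowers (hζ.autToPow ℚ g)) = orderOf g ∧
      ∃ B : Finset ℕ,
        (∀ p : ℕ, p.Prime → p ∉ B →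
          Spec.primeCount (IntermediateField.fixedField (Subgroup.zpowers g)) p ≠ 0 →
          ∃ u ∈ Subgroup.zpowers (hζ.autToPow ℚ g),
            ((u : (ZMod m)ˣ) : ZMod m) = (p : ZMod m)) ∧
        (∀ p : ℕ, p.Prime → p ∉ B →
          Spec.primeCount (IntermediateField.fixedField (⊥ : Subgroup (L ≃ₐ[ℚ] L))) p =
            if (p : ZMod m) = 1 then
              orderOf g * Spec.primeCount (IntermediateField.fixedField (Subgroup.zpowers g)) p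
            else 0) ∧
        (∀ χ : DirichletCharacter ℂ m, χ ((hζ.autToPow ℚ g : (ZMod m)ˣ) : ZMod m) ≠ 1 →
          ∃ I : Ideal (𝓞 (IntermediateField.fixedField (Subgroup.zpowers g))),
            χ (Ideal.absNorm I : ZMod m) ≠ 0 ∧ χ (Ideal.absNorm I : ZMod m) ≠ 1) ∧
        (∀ p : ℕ, p.Prime → p ∉ B →
          Spec.primeCount (IntermediateField.fixedField (Subgroup.zpowers g)) p ≠ 0 →
          (p : ZMod m) = ((hζ.autToPow ℚ g : (ZMod m)ˣ) : ZMod m) →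
          ∃ P : Ideal (𝓞 L), P.IsPrime ∧ (p : 𝓞 L) ∈ P ∧ Spec.InertiaTrivial L P ∧
            IsArithFrobAt ℤ g P) := by
  intro _ _ hM L _ _ _ m _ ζ hζ g hg
  refine ⟨card_zpowers_autToPow hζ g hg, cycBad L m, ?_, ?_, ?_, ?_⟩
  · intro p hp hpB hc
    exact cyc_supp hζ g hp hpB hc
  · intro p hp hpB
    exact cyc_split hζ g hg hp hpB
  · intro χ hχ
    exact cyc_nt hM hζ g χ hχ
  · intro p hp hpB hc hpa
    exact cyc_fin hζ g hg hp hpB hc hpa

end Fermat.Agent.Lib.Cheb.H281
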