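import Fermat.Agent.Lib.Cheb.H281.Count

/-!
# CHEB Tier 2, piece CYC-ALG: auxiliary lemmas (helper281)

Roots of unity and Frobenius elements:
* `autToPow_eq_of_apply`, `apply_eq_of_autToPow_eq`, `apply_zeta_eq_iff`;
* `orderOf_autToPow`, `card_zpowers_autToPow` (ORD);
* `frob_apply_zeta`: an arithmetic Frobenius at `P ∣ p`, `p ∤ m`, maps `ζ ↦ ζ ^ p`.
-/

set_option autoImplicit false
set_option linter.unusedSectionVars false

open NumberField
open scoped Pointwise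

namespace Fermat.Agent.Lib.Cheb.H281

section roots

variable {L : Type} [Field L] [NumberField L] {m : ℕ} [NeZero m] {ζ : L}

/-- Powers of a primitive root agree iff the exponents agree mod `m`. -/
theorem natCast_eq_of_pow_eq (hζ : IsPrimitiveRoot ζ m) {x k : ℕ} (h : ζ ^ x = ζ ^ k) :
    (x : ZMod m) = (k : ZMod m) := by
  have hζ0 : ζ ≠ 0 := hζ.ne_zero (NeZero.ne m)
  have h1 : ζ ^ ((x : ℤ) - (k : ℤ)) = 1 := by
    rw [zpow_sub₀ hζ0, zpow_natCast, zpow_natCast, h, div_self (pow_ne_zero _ hζ0)]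
  have h2 := (hζ.zpow_eq_one_iff_dvd _).mp h1
  have h3 : ((x : ℤ) : ZMod m) = ((k : ℤ) : ZMod m) := by
    rw [ZMod.intCast_eq_intCast_iff_dvd_sub]
    have : (m : ℤ) ∣ (k : ℤ) - (x : ℤ) := by
      have := h2.neg_right
      simpa using this
    exact this
  simpa using h3

/-- `autToPow` is determined by the action on `ζ`. -/
theorem autToPow_eq_of_apply (hζ : IsPrimitiveRoot ζ m) (τ : L ≃ₐ[ℚ] L) {k : ℕ}
    (h : τ ζ = ζ ^ k) :
    ((hζ.autToPow ℚ τ : (ZMod m)ˣ) : ZMod m) = (k : ZMod m) := by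
  have h1 := hζ.autToPow_spec ℚ τ
  rw [h] at h1
  have := natCast_eq_of_pow_eq hζ h1
  simpa using this

theorem apply_eq_of_autToPow_eq (hζ : IsPrimitiveRoot ζ m) (τ : L ≃ₐ[ℚ] L) {k : ℕ}
    (h : ((hζ.autToPow ℚ τ : (ZMod m)ˣ) : ZMod m) = (k : ZMod m)) : τ ζ = ζ ^ k := by
  rw [← hζ.autToPow_spec ℚ τ, h, ZMod.val_natCast]
  conv_rhs => rw [← Nat.div_add_mod k m, pow_add, pow_mul, hζ.pow_eq_one, one_pow, one_mul]

/-- Faithfulness on `ζ` in terms of `autToPow`. -/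
theorem apply_zeta_eq_iff (hζ : IsPrimitiveRoot ζ m) (τ : L ≃ₐ[ℚ] L) :
    τ ζ = ζ ↔ hζ.autToPow ℚ τ = 1 := by
  constructor
  · intro h
    have := autToPow_eq_of_apply hζ τ (k := 1) (by simpa using h)
    ext
    simpa using this
  · intro h
    have := apply_eq_of_autToPow_eq hζ τ (k := 1) (by simp [h])
    simpa using this

/-- (ORD) If `⟨g⟩` acts faithfully on `ζ`, then `autToPow g` has the same order as `g`. -/
theorem orderOf_autToPow (hζ : IsPrimitiveRoot ζ m) (g : L ≃ₐ[ℚ] L)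
    (hg : ∀ k : ℕ, (g ^ k) ζ = ζ → g ^ k = 1) :
    orderOf (hζ.autToPow ℚ g) = orderOf g := by
  apply orderOf_eq_orderOf_iff.mpr
  intro k
  rw [← map_pow, ← apply_zeta_eq_iff hζ (g ^ k)]
  constructor
  · intro h; exact hg k h
  · intro h; rw [h]; rfl

theorem card_zpowers_autToPow (hζ : IsPrimitiveRoot ζ m) (g : L ≃ₐ[ℚ] L)
    (hg : ∀ k : ℕ, (g ^ k) ζ = ζ → g ^ k = 1) :
    Nat.card (Subgroup.zpowers (hζ.autToPow ℚ g)) = orderOf g := by
  rw [Nat.card_zpowers, orderOf_autToPow hζ g hg]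

end roots

section frobzeta

variable {L : Type} [Field L] [NumberField L] {m : ℕ} [NeZero m] {ζ : L}

/-- If `p ∤ m` and `p ∈ P`, then `m ∉ P`. -/
theorem natCast_notMem_of_not_dvd {p : ℕ} (hp : p.Prime) (hpm : ¬ p ∣ m)
    {P : Ideal (𝓞 L)} [hP : P.IsPrime] (hpP : (p : 𝓞 L) ∈ P) : (m : 𝓞 L) ∉ P := by
  intro hm
  have hcop : Nat.Coprime p m := (Nat.Prime.coprime_iff_not_dvd hp).mpr hpm
  have h1 : ((Nat.gcd p m : ℤ) : 𝓞 L) ∈ P := by
    rw [Nat.gcd_eq_gcd_ab]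
    push_cast
    exact P.add_mem (P.mul_mem_right _ hpP) (P.mul_mem_right _ hm)
  rw [hcop] at h1
  simp only [Nat.cast_one, Int.cast_one] at h1
  exact hP.ne_top ((Ideal.eq_top_iff_one P).mpr h1)

/-- The cardinality of the residue field of `ℤ` below a prime `P ∣ p`. -/
theorem card_quot_under {p : ℕ} (hp : p.Prime) {P : Ideal (𝓞 L)} [P.IsPrime]
    (hpP : (p : 𝓞 L) ∈ P) : Nat.card (ℤ ⧸ P.under ℤ) = p := by
  rw [under_int_eq_span hp hpP, Int.card_ideal_quot]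

/-- An arithmetic Frobenius at `P ∣ p`, `p ∤ m`, raises `m`-th roots of unity to the `p`-th
power. -/
theorem frob_apply_zeta (hζ : IsPrimitiveRoot ζ m) {p : ℕ} (hp : p.Prime) (hpm : ¬ p ∣ m)
    {P : Ideal (𝓞 L)} [P.IsPrime] (hpP : (p : 𝓞 L) ∈ P) {τ : L ≃ₐ[ℚ] L}
    (hτ : IsArithFrobAt ℤ τ P) : τ ζ = ζ ^ p := by
  have hm : (m : 𝓞 L) ∉ P := natCast_notMem_of_not_dvd hp hpm hpP
  have hcoe : (algebraMap (𝓞 L) L) hζ.toInteger = ζ := rfl
  have hζ' : (hζ.toInteger) ^ m = 1 := by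
    apply RingOfIntegers.ext
    change algebraMap (𝓞 L) L (hζ.toInteger ^ m) = algebraMap (𝓞 L) L 1
    rw [map_pow, hcoe, map_one]
    exact hζ.pow_eq_one
  have key := AlgHom.IsArithFrobAt.apply_of_pow_eq_one hτ hζ' hm
  rw [card_quot_under hp hpP] at key
  have h2 := congrArg (algebraMap (𝓞 L) L) key
  rw [map_pow, hcoe] at h2
  rw [← h2]
  change τ ζ = algebraMap (𝓞 L) L (τ • hζ.toInteger)
  rw [algebraMap.smul', hcoe, AlgEquiv.smul_def]

end frobzeta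


end Fermat.Agent.Lib.Cheb.H281
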