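import Fermat.Agent.Lib.Cheb.H281.CycAlgAux

/-!
# CHEB Tier 2, piece CYC-ALG: good primes (helper281)

* `cycBad L m`: primes dividing `m` or the different of `L`;
* `exists_mem_primesLe`: a prime of norm `p` in `L^H` gives `P ∣ p` with `D_P ≤ H`;
* `eq_one_of_mem_zpowers`, `eq_of_mem_zpowers`: `⟨g⟩` acts faithfully on `ζ`;
* `exists_frob_of_mem_primesLe`: the Frobenius `τ ∈ ⟨g⟩` at such a `P`, `τ ζ = ζ ^ p`.
-/

set_option autoImplicit false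
set_option linter.unusedSectionVars false

open NumberField
open scoped Pointwise

namespace Fermat.Agent.Lib.Cheb.H281

section cyc

variable {L : Type} [Field L] [NumberField L] [IsGalois ℚ L] {m : ℕ} [NeZero m] {ζ : L}

/-- The bad set for CYC-ALG: primes dividing `m` or the different. -/
noncomputable def cycBad (L : Type) [Field L] [NumberField L] (m : ℕ) : Finset ℕ :=
  m.primeFactors ∪ (H943.badNat L).primeFactors

theorem not_dvd_of_notMem_cycBad {p : ℕ} (hp : p.Prime) (h : p ∉ cycBad L m) :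
    ¬ p ∣ m ∧ ¬ p ∣ H943.badNat L := by
  simp only [cycBad, Finset.mem_union, not_or] at h
  exact ⟨fun hd => h.1 (Nat.mem_primeFactors.mpr ⟨hp, hd, NeZero.ne m⟩),
    fun hd => h.2 (Nat.mem_primeFactors.mpr ⟨hp, hd, H943.badNat_ne_zero L⟩)⟩

/-- If there is a prime of norm `p` in the fixed field of `H`, there is a prime `P ∣ p` of `L`
with `D_P ≤ H` (`p` unramified). -/
theorem exists_mem_primesLe (H : Subgroup (L ≃ₐ[ℚ] L)) {p : ℕ} (hp : p.Prime)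
    (hunr : ∀ (P : Ideal (𝓞 L)) [P.IsPrime], (p : 𝓞 L) ∈ P → Algebra.IsUnramifiedAt ℤ P)
    (h : Spec.primeCount (IntermediateField.fixedField H) p ≠ 0) :
    ∃ P, P ∈ Spec.primesLe L H p := by
  rw [primeCount_eq_ncard] at h
  obtain ⟨q, hq⟩ := Set.nonempty_of_ncard_ne_zero h
  have := hq.1
  obtain ⟨⟨P, hP⟩⟩ := (inferInstance : Nonempty (q.primesOver (𝓞 L)))
  refine ⟨P, ?_⟩
  rw [primesLe_eq_biUnion H hp hunr]
  exact Set.mem_biUnion hq hP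

/-- An element of `⟨g⟩` fixing `ζ` is trivial. -/
theorem eq_one_of_mem_zpowers (g : L ≃ₐ[ℚ] L) (hg : ∀ k : ℕ, (g ^ k) ζ = ζ → g ^ k = 1)
    {τ : L ≃ₐ[ℚ] L} (hτ : τ ∈ Subgroup.zpowers g) (h : τ ζ = ζ) : τ = 1 := by
  rw [← mem_powers_iff_mem_zpowers] at hτ
  obtain ⟨k, rfl⟩ := hτ
  exact hg k h

/-- Two elements of `⟨g⟩` with the same action on `ζ` are equal. -/
theorem eq_of_mem_zpowers (g : L ≃ₐ[ℚ] L) (hg : ∀ k : ℕ, (g ^ k) ζ = ζ → g ^ k = 1)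
    {τ τ' : L ≃ₐ[ℚ] L} (hτ : τ ∈ Subgroup.zpowers g) (hτ' : τ' ∈ Subgroup.zpowers g)
    (h : τ ζ = τ' ζ) : τ = τ' := by
  have h1 : τ'⁻¹ * τ ∈ Subgroup.zpowers g :=
    Subgroup.mul_mem _ (Subgroup.inv_mem _ hτ') hτ
  have h2 : (τ'⁻¹ * τ) ζ = ζ := by
    rw [AlgEquiv.mul_apply, h]
    exact τ'.symm_apply_apply ζ
  have := eq_one_of_mem_zpowers g hg h1 h2
  exact (inv_mul_eq_one.mp this).symm

/-- Data at a good prime `P ∣ p` with `D_P ≤ ⟨g⟩`: its Frobenius `τ ∈ ⟨g⟩` with `τ ζ = ζ ^ p`. -/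
theorem exists_frob_of_mem_primesLe (hζ : IsPrimitiveRoot ζ m) (g : L ≃ₐ[ℚ] L) {p : ℕ}
    (hp : p.Prime) (hpB : p ∉ cycBad L m) {P : Ideal (𝓞 L)}
    (hP : P ∈ Spec.primesLe L (Subgroup.zpowers g) p) :
    Spec.InertiaTrivial L P ∧ ∃ τ : L ≃ₐ[ℚ] L, IsArithFrobAt ℤ τ P ∧
      Spec.decomp L P = Subgroup.zpowers τ ∧ τ ∈ Subgroup.zpowers g ∧ τ ζ = ζ ^ p := by
  obtain ⟨hpm, hpd⟩ := not_dvd_of_notMem_cycBad hp hpB
  obtain ⟨hPp, hpP, hle⟩ := hP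
  obtain ⟨-, hI, τ, hτ, hD⟩ := H943.frob_of_not_dvd_badNat hp hpd P hPp hpP
  refine ⟨hI, τ, hτ, hD, hle (hD ▸ Subgroup.mem_zpowers τ), ?_⟩
  exact frob_apply_zeta hζ hp hpm hpP hτ

end cyc

end Fermat.Agent.Lib.Cheb.H281
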