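import Mathlib

/-!
# Frobenius elements generate the decomposition group at unramified primes

Setting of `Mathlib/RingTheory/Frobenius.lean`: a finite group `G` acts on a commutative ring `S`
with invariants `R`, `Q` is a prime of `S` with finite residue field.

* `stabilizer_le_zpowers_mul_inertia`: every element of the decomposition group of `Q` is a power
  of a Frobenius element times an element of the inertia group.
* `zpowers_eq_stabilizer`: if the inertia group of `Q` is trivial, a Frobenius element at `Q`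
  generates the decomposition group `MulAction.stabilizer G Q`.
-/

set_option autoImplicit false

open scoped Pointwise

namespace Fermat.Agent.Lib.Cheb.H281

variable {R S G : Type*} [CommRing R] [CommRing S] [Algebra R S] [Group G]
  [MulSemiringAction G S] [SMulCommClass G R S]

/-- The `n`-th power of a Frobenius element acts as `x ↦ x ^ (q ^ n)` modulo `Q`. -/
theorem isArithFrobAt_pow_apply {Q : Ideal S} [Q.IsPrime] {φ : G} (hφ : IsArithFrobAt R φ Q)
    (n : ℕ) (x : S) :
    Ideal.Quotient.mk Q ((φ ^ n) • x) =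
      Ideal.Quotient.mk Q x ^ (Nat.card (R ⧸ Q.under R) ^ n) := by
  induction n generalizing x with
  | zero => simp
  | succ n ih =>
    rw [pow_succ', mul_smul]
    have h1 : Ideal.Quotient.mk Q (φ • (φ ^ n • x)) =
        Ideal.Quotient.mk Q (φ ^ n • x) ^ Nat.card (R ⧸ Q.under R) := by
      have := hφ.mk_apply (φ ^ n • x)
      simpa using this
    rw [h1, ih, ← pow_mul, pow_succ]

attribute [local instance] Ideal.Quotient.field in
/-- Every element of the decomposition group acts on the residue field as a power of the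
Frobenius. -/
theorem exists_pow_of_mem_stabilizer {Q : Ideal S} [Q.IsPrime] [Finite (S ⧸ Q)]
    {τ : G} (hτ : τ ∈ MulAction.stabilizer G Q) :
    ∃ n : ℕ, ∀ x : S, Ideal.Quotient.mk Q (τ • x) =
      Ideal.Quotient.mk Q x ^ (Nat.card (R ⧸ Q.under R) ^ n) := by
  classical
  let P := Q.under R
  have : Q.IsMaximal := Ideal.Quotient.maximal_of_isField _ (Finite.isField_of_domain (S ⧸ Q))
  have : Finite (R ⧸ P) := .of_injective _ Ideal.algebraMap_quotient_injective
  have : P.IsMaximal := Ideal.Quotient.maximal_of_isField _ (Finite.isField_of_domain (R ⧸ P))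
  cases nonempty_fintype (R ⧸ P)
  obtain ⟨n, hn⟩ := (FiniteField.bijective_frobeniusAlgEquivOfAlgebraic_pow (R ⧸ P) (S ⧸ Q)).2
    (Ideal.Quotient.stabilizerHom Q P G ⟨τ, hτ⟩)
  refine ⟨n.1, fun x ↦ ?_⟩
  have := DFunLike.congr_fun hn (Ideal.Quotient.mk Q x)
  simp only [AlgEquiv.coe_pow, FiniteField.coe_frobeniusAlgEquivOfAlgebraic_iterate] at this
  rw [Nat.card_eq_fintype_card]
  exact this.symm

/-- Every element of the decomposition group of `Q` is a power of a given Frobenius element at
`Q` times an element of the inertia group. -/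
theorem exists_pow_mul_mem_inertia {Q : Ideal S} [Q.IsPrime] [Finite (S ⧸ Q)]
    {φ : G} (hφ : IsArithFrobAt R φ Q) {τ : G} (hτ : τ ∈ MulAction.stabilizer G Q) :
    ∃ n : ℕ, (φ ^ n)⁻¹ * τ ∈ Q.inertia G := by
  obtain ⟨n, hn⟩ := exists_pow_of_mem_stabilizer (R := R) hτ
  refine ⟨n, fun x ↦ ?_⟩
  -- `(φ^n)⁻¹ τ x - x ∈ Q`  iff  `τ x - φ^n x ∈ φ^n Q = Q`
  have hφn : φ ^ n ∈ MulAction.stabilizer G Q := Subgroup.pow_mem _ hφ.mem_stabilizer n
  have h1 : τ • x - φ ^ n • x ∈ Q := by
    rw [← Ideal.Quotient.eq, hn, isArithFrobAt_pow_apply hφ]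
  have h2 : (φ ^ n)⁻¹ • (τ • x - φ ^ n • x) ∈ (φ ^ n)⁻¹ • Q :=
    Ideal.smul_mem_pointwise_smul _ _ _ h1
  have h3 : (φ ^ n)⁻¹ • Q = Q := by
    have := MulAction.mem_stabilizer_iff.mp (Subgroup.inv_mem _ hφn)
    exact this
  rw [h3, smul_sub, inv_smul_smul, ← mul_smul] at h2
  exact h2

/-- **Frobenius generates the decomposition group at unramified primes.**
If the inertia group of `Q` is trivial, any Frobenius element at `Q` generates the
decomposition group of `Q`. -/
theorem zpowers_eq_stabilizer {Q : Ideal S} [Q.IsPrime] [Finite (S ⧸ Q)]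
    {φ : G} (hφ : IsArithFrobAt R φ Q) (hI : Q.inertia G = ⊥) :
    Subgroup.zpowers φ = MulAction.stabilizer G Q := by
  refine le_antisymm ((Subgroup.zpowers_le).mpr hφ.mem_stabilizer) fun τ hτ ↦ ?_
  obtain ⟨n, hn⟩ := exists_pow_mul_mem_inertia hφ hτ
  rw [hI, Subgroup.mem_bot, inv_mul_eq_one] at hn
  exact hn ▸ Subgroup.pow_mem _ (Subgroup.mem_zpowers φ) n

end Fermat.Agent.Lib.Cheb.H281
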